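import Fermat.Agent.RIB.Ctrl.Sig.Triple
import Fermat.Agent.RIB.Ctrl.Kap.Defs


/-!
# [SIG-MOD]: the term of `ModSig` (interface of `RIB/Ctrl/Kap/Defs.lean`)

`modSig C s h49 hF hζ : ModSig C h49 s hF.mem_decompositionSubgroup` for a Frobenius lift `s`
at `C.q` with `s ζ_q = ζ_q`.
-/

set_option autoImplicit false
set_option linter.unusedSectionVars false
noncomputable section

open ModularCurve AlgebraicCurve

namespace Fermat.Agent.RIB

open Fermat.Agent.S36 Fermat.Agent.S24 Fermat.Agent.RED.Gauss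

local notation "GQ" => (AlgebraicClosure ℚ ≃ₐ[ℚ] AlgebraicClosure ℚ)

variable (C : Ctx) (s : GQ)

theorem sigk_eq_resHom (hs : s ∈ C.A.decompositionSubgroup ℚ) :
    sigk C s hs = resHom C s hs := rfl

/-- **the term of `ModSig`** for a Frobenius lift fixing `ζ_q`. -/
def modSig (h49 : Fermat.Agent.RED.aux C.q ∣ C.M) (hF : C.A.IsFrobeniusAt s C.q)
    (hζ : s (C.ζ : Kb) = C.ζ) : ModSig C h49 s hF.mem_decompositionSubgroup where
  sR := sigR s hF.mem_decompositionSubgroup
  sM := sigF0 C.M s hF.mem_decompositionSubgroup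
  sF := sigF0 (C.M * C.q * C.q) s hF.mem_decompositionSubgroup
  sR_coe r := by
    rw [coe_sigR, algebraMap_sigK]
  emb_sM u := embF0_sigF0 C.M s _ u
  emb_sF g := embF0_sigF0 (C.M * C.q * C.q) s _ g
  sF_a i u := sigF0_a C s _ i u
  red_sM u w h := redsTo_e1_sigF0 C s _ h
  red_sF l g w h := redsTo_e3_sigF0 C s _ hζ l h
  isSig := isSig_sigSq C s hF h49 hζ

end Fermat.Agent.RIB
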