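import Fermat.Agent.S36.K0
import Fermat.Agent.S36.Mod.Lz
import Fermat.Agent.GAL.CycloChar
import Fermat.Agent.S54.Frobenius


/-!
# [SIG-MOD] (S6): correction of a Frobenius lift by inertia

* `exists_inertia_cycloChar_eq` : the cyclotomic character modulo `q` is surjective on the inertia
  groups at `q` (`N = ∏_{a ∈ H} (1 - ζ^a)` is fixed by inertia, `v(N) = v(1-ζ)^|H|`,
  `v(1-ζ)^(q-1) = v(q)`, and the values of the inertia-fixed elements are powers of `v(q)`).
* `isFrobeniusAt_mul_inertia`, `exists_isFrobeniusAt_fix`, `exists_isFrobeniusAt_fix_root`.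
-/

set_option autoImplicit false

namespace Fermat.Agent.RIB

open Fermat.Agent.GAL

local notation "Qbar" => AlgebraicClosure ℚ
local notation "GQ" => (AlgebraicClosure ℚ ≃ₐ[ℚ] AlgebraicClosure ℚ)

theorem corr_pow_val_mul {q : ℕ} [NeZero q] {ζ : Qbar} (hζ : ζ ^ q = 1) (a b : ZMod q) :
    ζ ^ (a * b).val = (ζ ^ a.val) ^ b.val := by
  rw [← pow_mul, ZMod.val_mul]
  conv_rhs => rw [← Nat.div_add_mod (a.val * b.val) q]
  rw [pow_add, pow_mul, hζ, one_pow, one_mul]

theorem corr_valuation_one_sub {q : ℕ} [NeZero q] (hq : q.Prime) (A : ValuationSubring Qbar)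
    {ζ : Qbar} (hζ : ζ ^ q = 1) (u : (ZMod q)ˣ) :
    A.valuation (1 - ζ ^ (u : ZMod q).val) = A.valuation (1 - ζ) := by
  refine le_antisymm (S36.valuation_one_sub_le_of_pow _ hq.ne_zero hζ _) ?_
  have h1 : ζ = (ζ ^ (u : ZMod q).val) ^ ((u⁻¹ : (ZMod q)ˣ) : ZMod q).val := by
    have : Fact (1 < q) := ⟨hq.one_lt⟩
    rw [← corr_pow_val_mul hζ, Units.mul_inv, ZMod.val_one, pow_one]
  have h2 : (ζ ^ (u : ZMod q).val) ^ q = 1 := by
    rw [← pow_mul, mul_comm, pow_mul, hζ, one_pow]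
  conv_lhs => rw [h1]
  exact S36.valuation_one_sub_le_of_pow _ hq.ne_zero h2 _

/-- **the cyclotomic character modulo `q` is surjective on the inertia groups at `q`.** -/
theorem exists_inertia_cycloChar_eq {q : ℕ} [NeZero q] (hq : q.Prime)
    (A : ValuationSubring Qbar) (hA : A.LiesOverPrime q) (u : (ZMod q)ˣ) :
    ∃ τ ∈ A.inertiaSubgroupIn ℚ, cycloChar q τ = u := by
  classical
  have : Fact q.Prime := ⟨hq⟩
  obtain ⟨ζ, hζ⟩ := HasEnoughRootsOfUnity.exists_primitiveRoot Qbar q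
  set H : Subgroup (ZMod q)ˣ := (A.inertiaSubgroupIn ℚ).map (cycloChar q) with hH
  set N : Qbar := ∏ a : H, (1 - ζ ^ ((a : (ZMod q)ˣ) : ZMod q).val) with hN
  have hv1 : A.valuation (1 - ζ) < 1 := S36.valuation_one_sub_zeta_lt hq hA hζ
  have h10 : (1 - ζ) ≠ 0 := sub_ne_zero.2 (hζ.ne_one hq.one_lt).symm
  have hv0 : 0 < A.valuation (1 - ζ) := by rw [Valuation.pos_iff]; exact h10
  have hvN : A.valuation N = A.valuation (1 - ζ) ^ Fintype.card H := by
    rw [hN, map_prod]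
    simp only [corr_valuation_one_sub hq A hζ.pow_eq_one, Finset.prod_const, Finset.card_univ]
  have hN0 : N ≠ 0 := by
    intro h0
    rw [h0, map_zero] at hvN
    exact (pow_pos hv0 _).ne hvN
  have hfix : ∀ σ ∈ A.inertiaSubgroupIn ℚ, σ N = N := by
    intro σ hσ
    have hm : cycloChar q σ ∈ H := ⟨σ, hσ, rfl⟩
    rw [hN, map_prod]
    refine Fintype.prod_equiv (Equiv.mulRight (⟨cycloChar q σ, hm⟩ : H)) _ _ (fun a => ?_)
    rw [map_sub, map_one, map_pow, cycloChar_spec q σ hζ.pow_eq_one]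
    congr 1
    rw [Equiv.coe_mulRight, Subgroup.coe_mul, Units.val_mul, corr_pow_val_mul hζ.pow_eq_one,
      ← pow_mul, ← pow_mul, mul_comm]
  obtain ⟨n, hn⟩ := S36.exists_zpow_of_inertia_fixed hq hA hN0 hfix
  have h2 := S36.valuation_one_sub_zeta_pow hq hA hζ
  rw [hvN, ← h2, ← zpow_natCast, ← zpow_natCast, ← zpow_mul] at hn
  have h3 : (Fintype.card H : ℤ) = ((q - 1 : ℕ) : ℤ) * n :=
    zpow_right_injective₀ hv0 hv1.ne hn
  have hc : 0 < Fintype.card H := Fintype.card_pos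
  have h4 : (q - 1) ∣ Fintype.card H := by
    have : ((q - 1 : ℕ) : ℤ) ∣ (Fintype.card H : ℤ) := ⟨n, h3⟩
    exact_mod_cast this
  have h5 : q - 1 ≤ Fintype.card H := Nat.le_of_dvd hc h4
  have h6 : Fintype.card (ZMod q)ˣ = q - 1 := ZMod.card_units q
  have h7 : H = ⊤ := by
    apply Subgroup.eq_top_of_card_eq
    rw [Nat.card_eq_fintype_card, Nat.card_eq_fintype_card]
    refine le_antisymm (Fintype.card_subtype_le _) ?_
    rw [h6]; exact h5
  have h8 : u ∈ H := by rw [h7]; trivial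
  obtain ⟨τ, hτ, hτu⟩ := h8
  exact ⟨τ, hτ, hτu⟩

/-- a Frobenius lift times an element of the inertia group is a Frobenius lift. -/
theorem isFrobeniusAt_mul_inertia {A : ValuationSubring Qbar} {q : ℕ} {s τ : GQ}
    (hs : A.IsFrobeniusAt s q) (hτ : τ ∈ A.inertiaSubgroupIn ℚ) : A.IsFrobeniusAt (s * τ) q := by
  obtain ⟨t, ht, rfl⟩ := hτ
  have hsd := hs.mem_decompositionSubgroup
  refine ⟨mul_mem hsd t.2, fun x => ?_⟩
  have h1 : (⟨s * (A.decompositionSubgroup ℚ).subtype t, mul_mem hsd t.2⟩ :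
      A.decompositionSubgroup ℚ) = ⟨s, hsd⟩ * t := rfl
  have h2 : t • x = x := by
    have := MonoidHom.mem_ker.1 ht
    have h3 := congrArg (fun f : IsLocalRing.ResidueField A ≃+* IsLocalRing.ResidueField A => f x) this
    exact h3
  rw [h1, mul_smul, h2]
  exact hs.smul_residue_eq x

/-- **correction of a Frobenius lift by inertia** : it may be chosen to fix a `q`-th root of unity. -/
theorem exists_isFrobeniusAt_fix {q : ℕ} (hq : q.Prime)
    (A : ValuationSubring Qbar) (hA : A.LiesOverPrime q) {s : GQ} (hs : A.IsFrobeniusAt s q) :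
    ∃ τ ∈ A.inertiaSubgroupIn ℚ, A.IsFrobeniusAt (s * τ) q ∧
      ∀ z : Qbar, z ^ q = 1 → (s * τ) z = z := by
  have : NeZero q := ⟨hq.ne_zero⟩
  obtain ⟨τ, hτ, hτu⟩ := exists_inertia_cycloChar_eq hq A hA (cycloChar q s)⁻¹
  refine ⟨τ, hτ, isFrobeniusAt_mul_inertia hs hτ, fun z hz => ?_⟩
  have : Fact (1 < q) := ⟨hq.one_lt⟩
  rw [cycloChar_spec q (s * τ) hz, map_mul, hτu, mul_inv_cancel, Units.val_one, ZMod.val_one,
    pow_one]

/-- **existence of a Frobenius lift fixing the `q`-th roots of unity.** -/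
theorem exists_isFrobeniusAt_fix_root {q : ℕ} (hq : q.Prime)
    (A : ValuationSubring Qbar) (hA : A.LiesOverPrime q) :
    ∃ s : GQ, A.IsFrobeniusAt s q ∧ ∀ z : Qbar, z ^ q = 1 → s z = z := by
  obtain ⟨s, hs⟩ := S54.exists_isFrobeniusAt_of_liesOverPrime hq A hA
  obtain ⟨τ, -, h1, h2⟩ := exists_isFrobeniusAt_fix hq A hA hs
  exact ⟨s * τ, h1, h2⟩

end Fermat.Agent.RIB
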