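import Fermat.Agent.RIB.Ctrl.Sig.Base
import Fermat.Agent.S36.Mod.SysExp
import Fermat.Agent.S36.Theta.Uniq

/-!
# RIB / CTRL / [SIG-MOD] (S3) : the decomposition group and the three Gauss valuations

`C : S36.Ctx`, `s ∈ D_A` with `s ζ_q = ζ_q` (only needed for the middle component).
* `e1_sigF0`, `e3_sigF0` : the expansions are equivariant (`W2_galN`, `sig2_galN` by
  `ringHom_ext_three`);
* `sigk C s hs : k →+* k` the induced map on the residue field (`= frobenius` for a Frobenius);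
* `redsTo_coeffMap`, `redsTo_e1_sigF0`, `redsTo_e3_sigF0`, `red1_sigF0`, `red3_sigF0`;
* `sigF0_mem_O1_iff`, `sigF0_mem_O3_iff`;
* `sigF0_a`, `sigF0_jM`, `sigF0_j`, `sigF0_t`.
-/

set_option autoImplicit false
set_option linter.unusedSectionVars false
noncomputable section

open ModularCurve AlgebraicCurve

namespace Fermat.Agent.RIB

open Fermat.Agent.S36 Fermat.Agent.S24 Fermat.Agent.RED.Gauss

local notation "GQ" => (AlgebraicClosure ℚ ≃ₐ[ℚ] AlgebraicClosure ℚ)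

/-- the arithmetic Galois action on `FN N` as a ring hom -/
def galN (N : ℕ) [NeZero N] (s : GQ) : FN N →+* FN N :=
  (arithmeticRingAut (modularFunctionFieldFull N) s : FN N ≃+* FN N)

theorem coe_galN (N : ℕ) [NeZero N] (s : GQ) (f : FN N) :
    ((galN N s f : FN N) : LaurentSeries Kb) = coeffMap (s : Kb →+* Kb) (f : LaurentSeries Kb) := rfl

theorem galN_eq_smul (N : ℕ) [NeZero N] (s : GQ) (f : FN N) :
    galN N s f = arithmeticGalois (modularFunctionFieldFull N) s • f := rfl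

theorem galN_algebraMap (N : ℕ) [NeZero N] (s : GQ) (a : Kb) :
    galN N s (algebraMap Kb (FN N) a) = algebraMap Kb (FN N) (s a) :=
  arithmeticRingAut_algebraMap _ s a

theorem galN_alpha (N ℓ : ℕ) [NeZero N] [NeZero ℓ] (s : GQ) (f : FN N) :
    galN (N * ℓ) s (heckeAlphaBar Kb N ℓ f) = heckeAlphaBar Kb N ℓ (galN N s f) := by
  apply Subtype.ext
  rw [coe_galN, coe_heckeAlphaBar, coe_heckeAlphaBar, coe_galN]

theorem galN_beta (N ℓ : ℕ) [NeZero N] [NeZero ℓ] (s : GQ) (f : FN N) :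
    galN (N * ℓ) s (heckeBetaBar Kb N ℓ f) = heckeBetaBar Kb N ℓ (galN N s f) := by
  apply Subtype.ext
  rw [coe_galN, coe_heckeBetaBar, coe_heckeBetaBar, coe_galN, coeffMap_qExpand]

theorem sig_coeffMap_rot (s : GQ) (ζ : Kbˣ) (hζ : s (ζ : Kb) = ζ) (x : LaurentSeries Kb) :
    coeffMap (s : Kb →+* Kb) (rot ζ x) = rot ζ (coeffMap (s : Kb →+* Kb) x) := by
  ext n
  simp [hζ]

variable (C : Ctx) (s : GQ)

theorem W2_galN (f : FN (C.M * C.q * C.q)) : C.W2 (galN _ s f) = galN _ s (C.W2 f) := by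
  have H := C.isSW
  have : C.W2.comp (galN (C.M * C.q * C.q) s) = (galN (C.M * C.q * C.q) s).comp C.W2 := by
    apply ringHom_ext_three C.M C.q C.hq
    · intro a
      simp only [RingHom.comp_apply]
      rw [galN_algebraMap, H.wc, H.wc, galN_algebraMap]
    · intro u
      simp only [RingHom.comp_apply]
      rw [galN_alpha, galN_alpha, H.w0, H.w0, galN_beta, galN_beta]
    · intro u
      simp only [RingHom.comp_apply]
      rw [galN_alpha, galN_beta, H.w1, H.w1, galN_alpha, galN_beta]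
    · intro u
      simp only [RingHom.comp_apply]
      rw [galN_beta, galN_beta, H.w2, H.w2, galN_alpha, galN_alpha]
  exact congrArg (fun φ => φ f) this

theorem sig2_galN (hζ : s (C.ζ : Kb) = C.ζ) (f : FN (C.M * C.q * C.q)) :
    C.sig2 (galN _ s f) = coeffMap (s : Kb →+* Kb) (C.sig2 f) := by
  have H := C.isSW
  have : C.sig2.comp (galN (C.M * C.q * C.q) s) = (coeffMap (s : Kb →+* Kb)).comp C.sig2 := by
    apply ringHom_ext_three C.M C.q C.hq
    · intro a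
      simp only [RingHom.comp_apply]
      rw [galN_algebraMap, H.s0, H.s0, HahnSeries.C_apply, HahnSeries.C_apply, coeffMap_single]
      rfl
    · intro u
      simp only [RingHom.comp_apply]
      rw [galN_alpha, H.s1, H.s1, coe_galN]
    · intro u
      simp only [RingHom.comp_apply]
      rw [galN_alpha, H.s1, H.s1, coe_galN]
    · intro u
      simp only [RingHom.comp_apply]
      rw [galN_beta, galN_beta, H.s2, H.s2, coe_galN, sig_coeffMap_rot s C.ζ hζ]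
  exact congrArg (fun φ => φ f) this

variable (hs : s ∈ C.A.decompositionSubgroup ℚ)

theorem embF0_sigF0' (N : ℕ) [NeZero N] (y : F0 C.A N) :
    embF0 C.A N (sigF0 N s hs y) = galN N s (embF0 C.A N y) := embF0_sigF0 N s hs y

theorem e1_sigF0 (y : C.FM) :
    C.e1 (sigF0 C.M s hs y) = coeffMap (s : Kb →+* Kb) (C.e1 y) := by
  show ((embF0 C.A C.M (sigF0 C.M s hs y) : FN C.M) : LaurentSeries Kb) = _
  rw [embF0_sigF0', coe_galN]
  rfl

/-- **(S3)** the three expansions are equivariant -/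
theorem e3_sigF0 (hζ : s (C.ζ : Kb) = C.ζ) (i : Fin 3) (y : C.F) :
    C.e3 i (sigF0 (C.M * C.q * C.q) s hs y) = coeffMap (s : Kb →+* Kb) (C.e3 i y) := by
  fin_cases i
  · show ((embF0 C.A _ (sigF0 _ s hs y) : FN (C.M * C.q * C.q)) : LaurentSeries Kb) = _
    rw [embF0_sigF0', coe_galN]
    rfl
  · show C.sig2 (embF0 C.A _ (sigF0 _ s hs y)) = _
    rw [embF0_sigF0', sig2_galN C s hζ]
    rfl
  · show ((C.W2 (embF0 C.A _ (sigF0 _ s hs y)) : FN (C.M * C.q * C.q)) : LaurentSeries Kb) = _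
    rw [embF0_sigF0', W2_galN, coe_galN]
    rfl


/-- the action of `s ∈ D_A` on the residue field -/
def sigk : C.k →+* C.k :=
  MulSemiringAction.toRingHom (C.A.decompositionSubgroup ℚ) C.k ⟨s, hs⟩

theorem sigk_apply (x : C.k) :
    sigk C s hs x = (⟨s, hs⟩ : C.A.decompositionSubgroup ℚ) • x := rfl

theorem sigk_eq_frobenius (hF : C.A.IsFrobeniusAt s C.q) :
    sigk C s hF.mem_decompositionSubgroup = frobenius C.k C.q :=
  RingHom.ext fun x => hF.smul_residue_eq x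

/-- coefficientwise Galois action and reduction -/
theorem redsTo_coeffMap {x : LaurentSeries Kb} {y : LaurentSeries C.k} (h : RedsTo C.π x y) :
    RedsTo C.π (coeffMap (s : Kb →+* Kb) x) (coeffMap (sigk C s hs) y) := by
  obtain ⟨hx, rfl⟩ := h
  exact ⟨RED.TorsES.coeffMap_mem_bigO (s : Kb →+* Kb) (RED.GalEq.decompHom C.A s hs) (sigk C s hs)
      (fun _ => rfl) (fun _ => rfl) hx,
    RED.TorsES.bigRed_coeffMap (s : Kb →+* Kb) (RED.GalEq.decompHom C.A s hs) (sigk C s hs)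
      (fun _ => rfl) (fun _ => rfl) hx⟩

theorem redsTo_e1_sigF0 {u : C.FM} {y : LaurentSeries C.k} (h : RedsTo C.π (C.e1 u) y) :
    RedsTo C.π (C.e1 (sigF0 C.M s hs u)) (coeffMap (sigk C s hs) y) := by
  rw [e1_sigF0]
  exact redsTo_coeffMap C s hs h

theorem redsTo_e3_sigF0 (hζ : s (C.ζ : Kb) = C.ζ) (i : Fin 3) {x : C.F} {y : LaurentSeries C.k}
    (h : RedsTo C.π (C.e3 i x) y) :
    RedsTo C.π (C.e3 i (sigF0 (C.M * C.q * C.q) s hs x)) (coeffMap (sigk C s hs) y) := by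
  rw [e3_sigF0 C s hs hζ]
  exact redsTo_coeffMap C s hs h

theorem sigF0_mem_O1 {u : C.FM} (hu : u ∈ C.O1) : sigF0 C.M s hs u ∈ C.O1 :=
  (redsTo_e1_sigF0 C s hs (⟨hu, rfl⟩ : RedsTo C.π (C.e1 u) _)).1

theorem red1_sigF0 {u : C.FM} (hu : u ∈ C.O1) :
    C.red1 ⟨sigF0 C.M s hs u, sigF0_mem_O1 C s hs hu⟩ = coeffMap (sigk C s hs) (C.red1 ⟨u, hu⟩) :=
  (redsTo_e1_sigF0 C s hs (⟨hu, rfl⟩ : RedsTo C.π (C.e1 u) _)).2

theorem sigF0_mem_O3 (hζ : s (C.ζ : Kb) = C.ζ) (i : Fin 3) {x : C.F} (hx : x ∈ C.O3 i) :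
    sigF0 (C.M * C.q * C.q) s hs x ∈ C.O3 i :=
  (redsTo_e3_sigF0 C s hs hζ i (⟨hx, rfl⟩ : RedsTo C.π (C.e3 i x) _)).1

theorem red3_sigF0 (hζ : s (C.ζ : Kb) = C.ζ) (i : Fin 3) {x : C.F} (hx : x ∈ C.O3 i) :
    C.red3 i ⟨sigF0 (C.M * C.q * C.q) s hs x, sigF0_mem_O3 C s hs hζ i hx⟩ =
      coeffMap (sigk C s hs) (C.red3 i ⟨x, hx⟩) :=
  (redsTo_e3_sigF0 C s hs hζ i (⟨hx, rfl⟩ : RedsTo C.π (C.e3 i x) _)).2

theorem sigF0_symm_eq (N : ℕ) [NeZero N] (y : F0 C.A N) :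
    (sigF0 N s hs).symm y = sigF0 N s⁻¹ ((C.A.decompositionSubgroup ℚ).inv_mem hs) y := rfl

theorem sigF0_mem_O3_iff (hζ : s (C.ζ : Kb) = C.ζ) (i : Fin 3) (x : C.F) :
    sigF0 (C.M * C.q * C.q) s hs x ∈ C.O3 i ↔ x ∈ C.O3 i := by
  refine ⟨fun h => ?_, sigF0_mem_O3 C s hs hζ i⟩
  have hζ' : s⁻¹ (C.ζ : Kb) = C.ζ := by
    conv_lhs => rw [← hζ]
    exact s.symm_apply_apply _
  have := sigF0_mem_O3 C s⁻¹ ((C.A.decompositionSubgroup ℚ).inv_mem hs) hζ' i h
  rwa [← sigF0_symm_eq C s hs, RingEquiv.symm_apply_apply] at this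

theorem sigF0_mem_O1_iff (u : C.FM) : sigF0 C.M s hs u ∈ C.O1 ↔ u ∈ C.O1 := by
  refine ⟨fun h => ?_, sigF0_mem_O1 C s hs⟩
  have := sigF0_mem_O1 C s⁻¹ ((C.A.decompositionSubgroup ℚ).inv_mem hs) h
  rwa [← sigF0_symm_eq C s hs, RingEquiv.symm_apply_apply] at this

/-- `sigF0` commutes with the three degeneracy maps -/
theorem sigF0_a (i : Fin 3) (u : C.FM) :
    sigF0 (C.M * C.q * C.q) s hs (C.a i u) = C.a i (sigF0 C.M s hs u) := by
  fin_cases i
  · show sigF0 _ s hs (C.α (C.α' u)) = C.α (C.α' _)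
    rw [sigF0_alpha, sigF0_alpha]
  · show sigF0 _ s hs (C.α (C.β' u)) = C.α (C.β' _)
    rw [sigF0_alpha, sigF0_beta]
  · show sigF0 _ s hs (C.β (C.β' u)) = C.β (C.β' _)
    rw [sigF0_beta, sigF0_beta]

theorem sigF0_jM : sigF0 C.M s hs C.jM = C.jM :=
  Subtype.ext (coeffMap_coeffEmb (sigK s hs) _)

theorem sigF0_j (i : Fin 3) : sigF0 (C.M * C.q * C.q) s hs (C.j i) = C.j i := by
  rw [Ctx.j, sigF0_a, sigF0_jM]

theorem sigF0_t : sigF0 (C.M * C.q * C.q) s hs C.t = C.t := by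
  rw [Ctx.t, map_sub, map_pow, sigF0_j]

end Fermat.Agent.RIB
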