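import Fermat.Agent.S36.Mod.Objects
import Fermat.Agent.RED.TorsESAbs

/-!
# RIB / CTRL / [SIG-MOD] (S1), (S2) : the decomposition group acts on the objects of `S36.Ctx`

For `s` in the decomposition group of `A`:
* `sigK s hs : KK A ≃ₐ[ℚ] KK A`, `sigR s hs : RK A ≃+* RK A` the restrictions of `s`;
* `sigF0 N s hs : F0 A N ≃+* F0 A N` the coefficientwise action, semilinear (`sigF0_algebraMap`),
  compatible with the arithmetic Galois action over `ℚbar` (`embF0_sigF0`) and with the two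
  degeneracy maps (`sigF0_alpha`, `sigF0_beta`).
-/

set_option autoImplicit false
set_option linter.unusedSectionVars false
noncomputable section

open ModularCurve AlgebraicCurve

namespace Fermat.Agent.RIB

open Fermat.Agent.S36 Fermat.Agent.S24 Fermat.Agent.RED.Gauss

local notation "GQ" => (AlgebraicClosure ℚ ≃ₐ[ℚ] AlgebraicClosure ℚ)

variable {A : ValuationSubring Kb}

/-- an element of the decomposition group preserves the inertia field -/
theorem sig_mem_K0 {s : GQ} (hs : s ∈ A.decompositionSubgroup ℚ) {x : Kb} (hx : x ∈ K0 A) :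
    s x ∈ K0 A := by
  rw [mem_K0] at hx ⊢
  rintro _ ⟨τ, hτ, rfl⟩
  have hn : (A.inertiaSubgroup ℚ).Normal := by
    unfold ValuationSubring.inertiaSubgroup
    infer_instance
  have h1 := hn.conj_mem τ hτ (⟨s, hs⟩ : A.decompositionSubgroup ℚ)⁻¹
  have h2 := hx _ ⟨_, h1, rfl⟩
  have h3 : s.symm ((τ : GQ) (s x)) = x := by
    simpa using h2
  have := congrArg s h3
  simpa using this


/-- the restriction of `s ∈ D_A` to `K0 A` -/
def sigK0 (s : GQ) (hs : s ∈ A.decompositionSubgroup ℚ) : ↥(K0 A) ≃+* ↥(K0 A) where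
  toFun x := ⟨s x, sig_mem_K0 hs x.2⟩
  invFun x := ⟨s.symm x, sig_mem_K0 ((A.decompositionSubgroup ℚ).inv_mem hs) x.2⟩
  left_inv x := Subtype.ext (s.symm_apply_apply x)
  right_inv x := Subtype.ext (s.apply_symm_apply x)
  map_mul' x y := Subtype.ext (map_mul s (x : Kb) y)
  map_add' x y := Subtype.ext (map_add s (x : Kb) y)

/-- the restriction of `s ∈ D_A` to `KK A` -/
def sigKR (s : GQ) (hs : s ∈ A.decompositionSubgroup ℚ) : KK A ≃+* KK A := sigK0 s hs

/-- the restriction of `s ∈ D_A` to `KK A` -/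
def sigK (s : GQ) (hs : s ∈ A.decompositionSubgroup ℚ) : KK A ≃ₐ[ℚ] KK A :=
  AlgEquiv.ofRingEquiv (f := sigKR s hs) (fun r => by
    rw [eq_ratCast]
    exact map_ratCast (sigKR s hs) r)

theorem algebraMap_sigK (s : GQ) (hs : s ∈ A.decompositionSubgroup ℚ) (x : KK A) :
    algebraMap (KK A) Kb (sigK s hs x) = s (algebraMap (KK A) Kb x) := rfl

theorem algebraMap_sigK_symm (s : GQ) (hs : s ∈ A.decompositionSubgroup ℚ) (x : KK A) :
    algebraMap (KK A) Kb ((sigK s hs).symm x) = s.symm (algebraMap (KK A) Kb x) := rfl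

theorem sig_mem_A {s : GQ} (hs : s ∈ A.decompositionSubgroup ℚ) {x : Kb} (hx : x ∈ A) :
    s x ∈ A := (RED.GalEq.decompHom A s hs ⟨x, hx⟩).2

theorem sigK_mem_RK (s : GQ) (hs : s ∈ A.decompositionSubgroup ℚ) {x : KK A} (hx : x ∈ RK A) :
    sigK s hs x ∈ RK A := by
  rw [mem_RK, A.valuation_le_one_iff] at hx ⊢
  rw [algebraMap_sigK]
  exact sig_mem_A hs hx

theorem sigK_symm_mem_RK (s : GQ) (hs : s ∈ A.decompositionSubgroup ℚ) {x : KK A}
    (hx : x ∈ RK A) : (sigK s hs).symm x ∈ RK A := by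
  rw [mem_RK, A.valuation_le_one_iff] at hx ⊢
  rw [algebraMap_sigK_symm]
  exact sig_mem_A ((A.decompositionSubgroup ℚ).inv_mem hs) hx

/-- the restriction of `s ∈ D_A` to `RK A` -/
def sigR (s : GQ) (hs : s ∈ A.decompositionSubgroup ℚ) : RK A ≃+* RK A where
  toFun x := ⟨sigK s hs x, sigK_mem_RK s hs x.2⟩
  invFun x := ⟨(sigK s hs).symm x, sigK_symm_mem_RK s hs x.2⟩
  left_inv x := Subtype.ext ((sigK s hs).symm_apply_apply x)
  right_inv x := Subtype.ext ((sigK s hs).apply_symm_apply x)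
  map_mul' x y := Subtype.ext (map_mul (sigK s hs) (x : KK A) y)
  map_add' x y := Subtype.ext (map_add (sigK s hs) (x : KK A) y)

theorem coe_sigR (s : GQ) (hs : s ∈ A.decompositionSubgroup ℚ) (x : RK A) :
    ((sigR s hs x : RK A) : KK A) = sigK s hs x := rfl

variable (N : ℕ) [NeZero N]

/-- the coefficientwise action of `s ∈ D_A` on the function field of `X₀(N)` over `KK A` -/
def sigF0 (s : GQ) (hs : s ∈ A.decompositionSubgroup ℚ) : F0 A N ≃+* F0 A N :=
  arithmeticRingAut (modularFunctionFieldFull N) (sigK s hs)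

theorem coe_sigF0 (s : GQ) (hs : s ∈ A.decompositionSubgroup ℚ) (y : F0 A N) :
    ((sigF0 N s hs y : F0 A N) : LaurentSeries (KK A)) =
      coeffMap ((sigK s hs : KK A ≃ₐ[ℚ] KK A) : KK A →+* KK A) (y : LaurentSeries (KK A)) := rfl

theorem sigF0_algebraMap (s : GQ) (hs : s ∈ A.decompositionSubgroup ℚ) (c : KK A) :
    sigF0 N s hs (algebraMap (KK A) (F0 A N) c) = algebraMap (KK A) (F0 A N) (sigK s hs c) :=
  arithmeticRingAut_algebraMap _ _ c

theorem sigF0_algebraMap_RK (s : GQ) (hs : s ∈ A.decompositionSubgroup ℚ) (r : RK A) :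
    sigF0 N s hs (algebraMap (RK A) (F0 A N) r) = algebraMap (RK A) (F0 A N) (sigR s hs r) :=
  sigF0_algebraMap N s hs (r : KK A)

/-- compatibility with the arithmetic Galois action over `ℚbar` -/
theorem embF0_sigF0 (s : GQ) (hs : s ∈ A.decompositionSubgroup ℚ) (y : F0 A N) :
    embF0 A N (sigF0 N s hs y) = arithmeticGalois (modularFunctionFieldFull N) s • embF0 A N y := by
  apply Subtype.ext
  rw [coe_arithmeticGalois_smul, coe_embF0, coe_embF0, coe_sigF0, cK, coeffMap_coeffMap,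
    coeffMap_coeffMap]
  exact coeffMap_congr (RingHom.ext fun x => rfl) _

variable (ℓ : ℕ) [NeZero ℓ]

theorem sigF0_alpha (s : GQ) (hs : s ∈ A.decompositionSubgroup ℚ) (y : F0 A N) :
    sigF0 (N * ℓ) s hs (heckeAlphaBar (KK A) N ℓ y) = heckeAlphaBar (KK A) N ℓ (sigF0 N s hs y) := by
  apply Subtype.ext
  rw [coe_sigF0, coe_heckeAlphaBar, coe_heckeAlphaBar, coe_sigF0]

theorem sigF0_beta (s : GQ) (hs : s ∈ A.decompositionSubgroup ℚ) (y : F0 A N) :
    sigF0 (N * ℓ) s hs (heckeBetaBar (KK A) N ℓ y) = heckeBetaBar (KK A) N ℓ (sigF0 N s hs y) := by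
  apply Subtype.ext
  rw [coe_sigF0, coe_heckeBetaBar, coe_heckeBetaBar, coe_sigF0, coeffMap_qExpand]

end Fermat.Agent.RIB
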