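import Fermat.Agent.RIB.Ctrl.Sig.Val
import Fermat.Agent.RIB.Ctrl.Z36
import Fermat.Agent.S36.Mod.Inst


/-!
# [SIG-MOD] (S4): the Frobenius congruence at the triple points, and `IsSig`

For a Frobenius lift `s` at `C.q` fixing `ζ_q`, the square of `sigF0 s` on `C.F = F0 A (M q q)`
satisfies the hypotheses `IsSig` of `[Z36]` (`RIB/Ctrl/Z36.lean`):

* `sig_triple` : for an ideal `𝔪` of the chart containing `p 0` and `p 1`,
  `σ² b - b ^ (q²) ∈ 𝔪`;
* `sigSq`, `sigSqR`, `isSig_sigSq`.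
-/

set_option autoImplicit false
set_option linter.unusedSectionVars false
noncomputable section

open ModularCurve AlgebraicCurve

namespace Fermat.Agent.RIB

open Fermat.Agent.S36 Fermat.Agent.S24 Fermat.Agent.RED.Gauss

local notation "GQ" => (AlgebraicClosure ℚ ≃ₐ[ℚ] AlgebraicClosure ℚ)

/-- `sigF0` preserves the chart of a fixed function -/
theorem sigF0_mem_intCl {A : ValuationSubring Kb} (N : ℕ) [NeZero N] (s : GQ)
    (hs : s ∈ A.decompositionSubgroup ℚ) {x₀ x : F0 A N} (h₀ : sigF0 N s hs x₀ = x₀)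
    (hx : x ∈ intCl (RK A) x₀) : sigF0 N s hs x ∈ intCl (RK A) x₀ := by
  refine mem_intCl_of_forall_valuationSubring fun V hR hV => ?_
  have h1 : intCl (RK A) x₀ ≤ (V.comap (sigF0 N s hs : F0 A N →+* F0 A N)).toSubring := by
    refine intCl_le_of_mem (fun r => ?_) ?_
    · rw [ValuationSubring.mem_comap]
      show sigF0 N s hs (algebraMap (RK A) (F0 A N) r) ∈ V
      rw [sigF0_algebraMap_RK]
      exact hR _
    · rw [ValuationSubring.mem_comap]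
      show sigF0 N s hs x₀ ∈ V
      rw [h₀]
      exact hV
  exact h1 hx

variable (C : Ctx) (s : GQ) (hF : C.A.IsFrobeniusAt s C.q)

/-- `y ^ (q²) = (σ² y)(T ^ (q²))` -/
theorem sig_pow_sq_eq (y : LaurentSeries C.k) :
    qExpand C.k (C.q ^ 2) (coeffMap (frobenius C.k C.q) (coeffMap (frobenius C.k C.q) y)) =
      y ^ (C.q ^ 2) := by
  have q2 : ∀ z : LaurentSeries C.k, qExpand C.k (C.q ^ 2) z = qExpand C.k C.q (qExpand C.k C.q z) := by
    intro z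
    rw [qExpand_qExpand]; exact qExpand_congr' (sq C.q) z
  rw [q2, ← RED.FrobK.pow_char_eq C.k C.q, map_pow, ← RED.FrobK.pow_char_eq C.k C.q, ← pow_mul, sq]

/-- on the component `0` : `(σ² u)(q² τ) ≡ u(τ) ^ (q²)` -/
theorem sig_congr_zero {u : C.FM} (hu : u ∈ C.O1) :
    (C.O3 0).valuation (C.a 2 (sigF0 C.M s hF.mem_decompositionSubgroup
      (sigF0 C.M s hF.mem_decompositionSubgroup u)) - C.a 0 u ^ (C.q ^ 2)) < 1 := by
  have hs := hF.mem_decompositionSubgroup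
  have h1 : RedsTo C.π (C.e1 u) (C.red1 ⟨u, hu⟩) := ⟨hu, rfl⟩
  have h2 := redsTo_e1_sigF0 C s hs (redsTo_e1_sigF0 C s hs h1)
  rw [sigk_eq_frobenius C s hF] at h2
  have t2 := C.redsTo_e3 0 2 h2
  have t0 := C.redsTo_e3 0 0 h1
  have t := t2.sub (t0.pow (C.q ^ 2))
  have q0 : ∀ y : LaurentSeries C.k, qExpand C.k (C.q ^ 0) y = y := fun y =>
    (qExpand_congr' (pow_zero C.q) y).trans (qExpand_one_apply y)
  have e : qExpand C.k (C.q ^ nT 0 2) (coeffMap (frobenius C.k C.q)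
      (coeffMap (frobenius C.k C.q) (C.red1 ⟨u, hu⟩))) -
        qExpand C.k (C.q ^ nT 0 0) (C.red1 ⟨u, hu⟩) ^ (C.q ^ 2) = 0 := by
    change qExpand C.k (C.q ^ 2) _ - qExpand C.k (C.q ^ 0) _ ^ (C.q ^ 2) = 0
    rw [q0, sig_pow_sq_eq, sub_self]
  rw [e, ← map_pow, ← map_sub] at t
  exact RedsTo.valuation_lt_one C.hπ (C.disc3 0) t

theorem a_mem_intCl_t (i : Fin 3) {u : C.FM} (hu : u ∈ intCl C.R C.jM) :
    C.a i u ∈ intCl C.R C.t := by
  rw [C.intCl_t]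
  have h1 : C.a i u ∈ intCl C.R (C.j i) := map_mem_intCl_aux (R := C.R) (K := C.K) (C.a i) hu
  have J := C.jTriple
  fin_cases i
  · exact h1
  · exact intCl_le_intCl_of_mem_aux J.int01 h1
  · exact intCl_le_intCl_of_mem_aux J.int01 (intCl_le_intCl_of_mem_aux J.int12 h1)


/-- **(S4) [TRIPLE]** the Frobenius congruence at the points of the components `0` and `1`. -/
theorem sig_triple (h49 : Fermat.Agent.RED.aux C.q ∣ C.M) (hζ : s (C.ζ : Kb) = C.ζ)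
    (𝔪 : Ideal (intCl C.R C.t)) (h0 : C.sys.p 0 ≤ 𝔪) (h1 : C.sys.p 1 ≤ 𝔪)
    (b b' : intCl C.R C.t)
    (hb' : (b' : C.F) = sigF0 (C.M * C.q * C.q) s hF.mem_decompositionSubgroup
      (sigF0 (C.M * C.q * C.q) s hF.mem_decompositionSubgroup (b : C.F))) :
    b' - b ^ (C.q ^ 2) ∈ 𝔪 := by
  have hs := hF.mem_decompositionSubgroup
  obtain ⟨u, hu, hbu⟩ := C.lift₀ h49 0 (by decide) b b.2
  have huO : u ∈ C.O1 := intCl_le (C.sysM.gauss 0) hu
  set u2 : C.FM := sigF0 C.M s hs (sigF0 C.M s hs u) with hu2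
  have hu2i : u2 ∈ intCl C.R C.jM :=
    sigF0_mem_intCl C.M s hs (sigF0_jM C s hs) (sigF0_mem_intCl C.M s hs (sigF0_jM C s hs) hu)
  have hu2O : u2 ∈ C.O1 := intCl_le (C.sysM.gauss 0) hu2i
  -- the elements of the chart
  set x0 : intCl C.R C.t := ⟨C.a 0 u, a_mem_intCl_t C 0 hu⟩ with hx0
  set y0 : intCl C.R C.t := ⟨C.a 0 u2, a_mem_intCl_t C 0 hu2i⟩ with hy0
  set y2 : intCl C.R C.t := ⟨C.a 2 u2, a_mem_intCl_t C 2 hu2i⟩ with hy2
  have m1 : y2 - x0 ^ (C.q ^ 2) ∈ 𝔪 := h0 ((C.sys.mem_p 0).2 (sig_congr_zero C s hF huO))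
  have m2 : y2 - y0 ∈ 𝔪 := h1 ((C.sys.mem_p 1).2 (C.a2_congr hu2O))
  have m3 : b - x0 ∈ 𝔪 := h0 ((C.sys.mem_p 0).2 hbu)
  have m4 : b' - y0 ∈ 𝔪 := by
    apply h0
    rw [C.sys.mem_p 0]
    show (C.O3 0).valuation ((b' : C.F) - C.a 0 u2) < 1
    rw [hb', hu2, ← sigF0_a, ← sigF0_a, ← map_sub, ← map_sub]
    have key : ∀ z : C.F, (C.O3 0).valuation z < 1 →
        (C.O3 0).valuation (sigF0 (C.M * C.q * C.q) s hs z) < 1 := fun z hz =>
      val_lt_one_of_ringEquiv (sigF0 (C.M * C.q * C.q) s hs)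
        (fun x => (sigF0_mem_O3_iff C s hs hζ 0 x).1) hz
    exact key _ (key _ hbu)
  have m5 : b ^ (C.q ^ 2) - x0 ^ (C.q ^ 2) ∈ 𝔪 :=
    Ideal.mem_of_dvd 𝔪 (sub_dvd_pow_sub_pow b x0 _) m3
  have : b' - b ^ (C.q ^ 2) =
      (b' - y0) - (y2 - y0) + (y2 - x0 ^ (C.q ^ 2)) - (b ^ (C.q ^ 2) - x0 ^ (C.q ^ 2)) := by ring
  rw [this]
  exact 𝔪.sub_mem (𝔪.add_mem (𝔪.sub_mem m4 m2) m1) m5

/-- the square of the Frobenius lift on `C.F` -/
def sigSq : C.F ≃+* C.F :=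
  (sigF0 (C.M * C.q * C.q) s hF.mem_decompositionSubgroup).trans
    (sigF0 (C.M * C.q * C.q) s hF.mem_decompositionSubgroup)

/-- the square of the Frobenius lift on `C.R` -/
def sigSqR : C.R ≃+* C.R :=
  (sigR s hF.mem_decompositionSubgroup).trans (sigR s hF.mem_decompositionSubgroup)

theorem sigSq_apply (x : C.F) : sigSq C s hF x =
    sigF0 (C.M * C.q * C.q) s hF.mem_decompositionSubgroup
      (sigF0 (C.M * C.q * C.q) s hF.mem_decompositionSubgroup x) := rfl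

/-- **the hypotheses of `[Z36]`** for the square of a Frobenius lift fixing `ζ_q`. -/
theorem isSig_sigSq (h49 : Fermat.Agent.RED.aux C.q ∣ C.M) (hζ : s (C.ζ : Kb) = C.ζ) :
    IsSig (C.geom h49) (sigSq C s hF) (sigSqR C s hF) where
  map_R r := by
    rw [sigSq_apply]
    erw [sigF0_algebraMap_RK, sigF0_algebraMap_RK]
    rfl
  map_t := by
    show sigSq C s hF C.t = C.t
    rw [sigSq_apply, sigF0_t, sigF0_t]
  map_O i x := by
    show sigSq C s hF x ∈ C.O3 i ↔ x ∈ C.O3 i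
    rw [sigSq_apply, sigF0_mem_O3_iff C s _ hζ, sigF0_mem_O3_iff C s _ hζ]
  fix 𝔪 _ hp b b' hb' hb := by
    have h := sig_triple C s hF h49 hζ 𝔪 (hp 0) (hp 1) b b' hb'
    have : b' = (b' - b ^ (C.q ^ 2)) + b ^ (C.q ^ 2) := by ring
    rw [this]
    exact 𝔪.add_mem h (𝔪.pow_mem_of_mem hb _ (pow_pos C.hq.pos 2))

end Fermat.Agent.RIB
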